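import Mathlib
import Fermat.Prelude.Def_AlgebraicCurve_BaseChangeGalois
import Fermat.Prelude.Def_ModularCurve_ArithmeticGalois
import Fermat.Agent.S29lib.D.DescentMem
import Fermat.Agent.S29lib.D.FixedField

/-!
S48lib / X1 / Desc / QModel (helper9, block P3, descent `ℂ → ℚ̄`).

ABSTRACT PARAM port of `S29lib/D/Fan` (helper3).  `F₀ ⊆ ℚ((q))` a field, `F' / ℂ` a field with a
`q`-expansion `q : F' →+* ℂ((q))` identifying it with `laurentBaseChange ℂ F₀ = ℂ · F₀`
(structure `QExpData F₀ F'`; for `F' = Frac (WH0 Γ)` this is what the comparison of the formal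
model with the analytic function field provides).  Then

* `Q.aut τ : F' ≃+* F'` for `τ : ℂ ≃+* ℂ` (coefficientwise action), `Q.semi`, `Q.rho`;
* `Q.Φ : laurentBaseChange ℚ̄ F₀ →+* F'` (base change), `Q.Φ_const`, `Q.rho_Φ`;
* `Q.mem_range_Φ_of_fixed` : an element of `F'` fixed by a subgroup of finite index of
  `Aut (ℂ / ℚ̄)` lies in the image of `Φ`.
-/

set_option autoImplicit false
set_option linter.unusedSectionVars false
set_option linter.style.haveILetI false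

noncomputable section

namespace Fermat.Agent.S48lib.X1.Desc

open AlgebraicCurve ModularCurve Fermat.Agent.S29lib.D

/-- `ℚ̄` -/
local notation "Qb" => AlgebraicClosure ℚ

/-- a `q`-expansion identifying `F' / ℂ` with `ℂ · F₀ ⊆ ℂ((q))`. -/
structure QExpData (F₀ : IntermediateField ℚ (LaurentSeries ℚ)) (F' : Type*) [Field F']
    [Algebra ℂ F'] where
  /-- the `q`-expansion -/
  q : F' →+* LaurentSeries ℂ
  q_algebraMap : ∀ c : ℂ, q (algebraMap ℂ F' c) = HahnSeries.C c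
  q_mem : ∀ h : F', q h ∈ laurentBaseChange ℂ F₀
  q_surj : ∀ y ∈ laurentBaseChange ℂ F₀, ∃ h : F', q h = y
  exists_neg : ∃ h : F', (q h).order < 0

namespace QExpData

variable {F₀ : IntermediateField ℚ (LaurentSeries ℚ)} {F' : Type*} [Field F'] [Algebra ℂ F']
  (Q : QExpData F₀ F')

lemma q_injective : Function.Injective Q.q := Q.q.injective

/-- the identification with `ℂ · F₀`. -/
def equiv : F' ≃+* ↥(laurentBaseChange ℂ F₀) :=
  RingEquiv.ofBijective (Q.q.codRestrict (laurentBaseChange ℂ F₀).toSubring Q.q_mem)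
    ⟨fun a b h => Q.q_injective (congrArg Subtype.val h), fun y => by
      obtain ⟨h, hh⟩ := Q.q_surj y.1 y.2
      exact ⟨h, Subtype.ext hh⟩⟩

@[simp] lemma coe_equiv (h : F') : ((Q.equiv h : ↥(laurentBaseChange ℂ F₀)) : LaurentSeries ℂ) =
    Q.q h := rfl

lemma q_equiv_symm (y : ↥(laurentBaseChange ℂ F₀)) : Q.q (Q.equiv.symm y) = y := by
  rw [← coe_equiv, RingEquiv.apply_symm_apply]

/-- the coefficientwise action of a field automorphism of `ℂ` on `ℂ · F₀`. -/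
def autL (τ : ℂ ≃+* ℂ) : ↥(laurentBaseChange ℂ F₀) ≃+* ↥(laurentBaseChange ℂ F₀) where
  toFun x := ⟨coeffMap (τ : ℂ →+* ℂ) (x : LaurentSeries ℂ),
    coeffMap_mem_laurentBaseChange' (τ : ℂ →+* ℂ) F₀ x.2⟩
  invFun x := ⟨coeffMap (τ.symm : ℂ →+* ℂ) (x : LaurentSeries ℂ),
    coeffMap_mem_laurentBaseChange' (τ.symm : ℂ →+* ℂ) F₀ x.2⟩
  left_inv x := Subtype.ext <| by
    show coeffMap (τ.symm : ℂ →+* ℂ) (coeffMap (τ : ℂ →+* ℂ) (x : LaurentSeries ℂ))
      = (x : LaurentSeries ℂ)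
    rw [coeffMap_coeffMap,
      coeffMap_congr (g := RingHom.id ℂ) (RingHom.ext fun a => τ.symm_apply_apply a)
        (x : LaurentSeries ℂ), coeffMap_id]
  right_inv x := Subtype.ext <| by
    show coeffMap (τ : ℂ →+* ℂ) (coeffMap (τ.symm : ℂ →+* ℂ) (x : LaurentSeries ℂ))
      = (x : LaurentSeries ℂ)
    rw [coeffMap_coeffMap,
      coeffMap_congr (g := RingHom.id ℂ) (RingHom.ext fun a => τ.apply_symm_apply a)
        (x : LaurentSeries ℂ), coeffMap_id]
  map_mul' x y :=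
    Subtype.ext (map_mul (coeffMap (τ : ℂ →+* ℂ)) (x : LaurentSeries ℂ) (y : LaurentSeries ℂ))
  map_add' x y :=
    Subtype.ext (map_add (coeffMap (τ : ℂ →+* ℂ)) (x : LaurentSeries ℂ) (y : LaurentSeries ℂ))

/-- the automorphism of `F'` attached to a field automorphism of `ℂ`. -/
def aut (τ : ℂ ≃+* ℂ) : F' ≃+* F' := (Q.equiv.trans (autL τ)).trans Q.equiv.symm

lemma q_aut (τ : ℂ ≃+* ℂ) (h : F') : Q.q (Q.aut τ h) = coeffMap (τ : ℂ →+* ℂ) (Q.q h) := by
  unfold aut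
  rw [RingEquiv.trans_apply, RingEquiv.trans_apply, q_equiv_symm]
  rfl

lemma aut_algebraMap (τ : ℂ ≃+* ℂ) (c : ℂ) :
    Q.aut τ (algebraMap ℂ F' c) = algebraMap ℂ F' (τ c) := by
  apply Q.q_injective
  rw [q_aut, Q.q_algebraMap, Q.q_algebraMap]
  ext k
  rw [coeffMap_coeff, HahnSeries.C_apply, HahnSeries.C_apply]
  by_cases hk : k = 0
  · subst hk
    simp
  · rw [HahnSeries.coeff_single_of_ne hk, HahnSeries.coeff_single_of_ne hk, map_zero]

lemma aut_one (h : F') : Q.aut 1 h = h := by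
  apply Q.q_injective
  rw [q_aut]
  ext k
  simp

lemma aut_mul (τ₁ τ₂ : ℂ ≃+* ℂ) (h : F') : Q.aut (τ₁ * τ₂) h = Q.aut τ₁ (Q.aut τ₂ h) := by
  apply Q.q_injective
  rw [q_aut, q_aut, q_aut]
  ext k
  simp

/-- the semilinear automorphism of `F' / ℂ` attached to a field automorphism of `ℂ`. -/
def semi : (ℂ ≃+* ℂ) →* SemilinearAut ℂ F' where
  toFun τ := ⟨(Q.aut τ, τ), fun a => Q.aut_algebraMap τ a⟩
  map_one' := by
    apply Subtype.ext
    refine Prod.ext ?_ rfl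
    exact RingEquiv.ext fun h => Q.aut_one h
  map_mul' τ₁ τ₂ := by
    apply Subtype.ext
    refine Prod.ext ?_ rfl
    exact RingEquiv.ext fun h => Q.aut_mul τ₁ τ₂ h

@[simp] lemma semi_smul (τ : ℂ ≃+* ℂ) (h : F') : Q.semi τ • h = Q.aut τ h := rfl

@[simp] lemma baseAut_semi (τ : ℂ ≃+* ℂ) (c : ℂ) :
    SemilinearAut.baseAut (Q.semi τ) c = τ c := rfl

section Algebra

variable [Algebra Qb ℂ]

/-- the base change map. -/
def Φ : ↥(laurentBaseChange Qb F₀) →+* F' :=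
  (Q.equiv.symm : ↥(laurentBaseChange ℂ F₀) →+* F').comp
    (((coeffMap (algebraMap Qb ℂ)).comp (laurentBaseChange Qb F₀).toSubring.subtype).codRestrict
      (laurentBaseChange ℂ F₀).toSubring
      (fun x => coeffMap_mem_laurentBaseChange' (algebraMap Qb ℂ) F₀ x.2))

lemma q_Φ (x : ↥(laurentBaseChange Qb F₀)) :
    Q.q (Q.Φ x) = coeffMap (algebraMap Qb ℂ) (x : LaurentSeries Qb) := by
  unfold Φ
  rw [RingHom.comp_apply]
  exact Q.q_equiv_symm _

lemma Φ_algebraMap (a : Qb) :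
    Q.Φ (algebraMap Qb ↥(laurentBaseChange Qb F₀) a) = algebraMap ℂ F' (algebraMap Qb ℂ a) := by
  apply Q.q_injective
  rw [q_Φ, Q.q_algebraMap]
  refine (coeffMap_algebraMap' (algebraMap Qb ℂ) a).trans ?_
  rw [algebraMap_laurentSeries_eq_single]
  rfl

/-- `Φ u` constant implies `u` constant. -/
theorem Φ_const (u : ↥(laurentBaseChange Qb F₀)) (hu : ∃ c : ℂ, Q.Φ u = algebraMap ℂ F' c) :
    ∃ c₀ : Qb, u = algebraMap Qb ↥(laurentBaseChange Qb F₀) c₀ := by
  obtain ⟨c, hc⟩ := hu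
  have h1 : coeffMap (algebraMap Qb ℂ) (u : LaurentSeries Qb) = HahnSeries.C c := by
    rw [← Q.q_Φ, hc, Q.q_algebraMap]
  refine ⟨(u : LaurentSeries Qb).coeff 0, ?_⟩
  apply Subtype.ext
  show (u : LaurentSeries Qb) = algebraMap Qb (LaurentSeries Qb) ((u : LaurentSeries Qb).coeff 0)
  rw [algebraMap_laurentSeries_eq_single]
  ext k
  by_cases hk : k = 0
  · subst hk
    simp
  · rw [HahnSeries.coeff_single_of_ne hk]
    have h2 := congrArg (fun z => z.coeff k) h1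
    simp only [coeffMap_coeff] at h2
    rw [HahnSeries.C_apply, HahnSeries.coeff_single_of_ne hk] at h2
    exact (map_eq_zero_iff _ (algebraMap Qb ℂ).injective).1 h2

/-- the action of `Aut (ℂ / ℚ̄)` on `F'`. -/
def rho : (ℂ ≃ₐ[Qb] ℂ) →* SemilinearAut ℂ F' :=
  Q.semi.comp
    { toFun := fun τ => τ.toRingEquiv
      map_one' := rfl
      map_mul' := fun _ _ => rfl }

@[simp] lemma rho_smul (τ : ℂ ≃ₐ[Qb] ℂ) (h : F') : Q.rho τ • h = Q.aut τ.toRingEquiv h := rfl

@[simp] lemma baseAut_rho (τ : ℂ ≃ₐ[Qb] ℂ) (c : ℂ) :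
    SemilinearAut.baseAut (Q.rho τ) c = τ c := rfl

/-- `Aut (ℂ / ℚ̄)` fixes the image of `Φ`. -/
theorem rho_Φ (τ : ℂ ≃ₐ[Qb] ℂ) (z : ↥(laurentBaseChange Qb F₀)) : Q.rho τ • Q.Φ z = Q.Φ z := by
  rw [rho_smul]
  apply Q.q_injective
  rw [q_aut, q_Φ]
  ext k
  simp only [coeffMap_coeff]
  exact τ.commutes _

/-- **descent**: an element of `F'` fixed by a subgroup of finite index of `Aut (ℂ / ℚ̄)` comes
from `ℚ̄ · F₀`. -/
theorem mem_range_Φ_of_fixed (H : Subgroup (ℂ ≃ₐ[Qb] ℂ)) (hH : H.FiniteIndex) (h : F')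
    (hfix : ∀ σ ∈ H, Q.rho σ • h = h) : h ∈ Set.range Q.Φ := by
  classical
  haveI := hH
  -- the coefficients are algebraic
  have hcoeff : ∀ k : ℤ, (Q.q h).coeff k ∈ Set.range (algebraMap Qb ℂ) := by
    intro k
    refine mem_range_of_fixed_finiteIndex H fun τ hτ => ?_
    have h1 := congrArg (fun z => (Q.q z).coeff k) (hfix τ hτ)
    simp only [rho_smul, q_aut, coeffMap_coeff] at h1
    exact h1
  choose c hc using hcoeff
  have hsupp : Function.support c ⊆ (Q.q h).support := by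
    intro k hk
    rw [Function.mem_support] at hk
    rw [HahnSeries.mem_support, ← hc k]
    exact fun h0 => hk ((map_eq_zero_iff _ (algebraMap Qb ℂ).injective).1 h0)
  let y : LaurentSeries Qb := ⟨c, (Q.q h).isPWO_support.mono hsupp⟩
  have hy : coeffMap (algebraMap Qb ℂ) y = Q.q h := by
    ext k
    rw [coeffMap_coeff]
    exact hc k
  have hymem : y ∈ laurentBaseChange Qb F₀ := by
    apply mem_laurentBaseChange_of_coeffMap_mem (algebraMap Qb ℂ)
    rw [hy]
    exact Q.q_mem h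
  refine ⟨⟨y, hymem⟩, ?_⟩
  apply Q.q_injective
  rw [q_Φ, hy]

end Algebra

end QExpData

end Fermat.Agent.S48lib.X1.Desc
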