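import Mathlib
import Fermat.Agent.S29lib.D.InfPlace
import Fermat.Agent.S48lib.X1.Desc.QModel

/-!
S48lib / X1 / Desc / Inf (helper9, block P3, descent `ℂ → ℚ̄`).

ABSTRACT PARAM port of `S29lib/D/InfPlace` (helper3): for `Q : QExpData F₀ F'` the place at
infinity `Q.pinf` of `F' / ℂ` (valuation ring: `q`-expansions without pole) and the leading
coefficient `Q.lc : F' →*₀ ℂ`, both compatible with the coefficientwise action of `Aut ℂ`.
-/

set_option autoImplicit false
set_option linter.unusedSectionVars false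

noncomputable section

namespace Fermat.Agent.S48lib.X1.Desc

open AlgebraicCurve ModularCurve Fermat.Agent.S29lib.D

namespace QExpData

variable {F₀ : IntermediateField ℚ (LaurentSeries ℚ)} {F' : Type*} [Field F'] [Algebra ℂ F']
  (Q : QExpData F₀ F')

/-- the order of the `q`-expansion. -/
def ordInf (h : F') : ℤ := (Q.q h).order

lemma q_ne_zero {h : F'} (hh : h ≠ 0) : Q.q h ≠ 0 :=
  (map_ne_zero Q.q).2 hh

lemma ordInf_mul {h₁ h₂ : F'} (h1 : h₁ ≠ 0) (h2 : h₂ ≠ 0) :
    Q.ordInf (h₁ * h₂) = Q.ordInf h₁ + Q.ordInf h₂ := by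
  unfold ordInf
  rw [map_mul, HahnSeries.order_mul (Q.q_ne_zero h1) (Q.q_ne_zero h2)]

lemma ordInf_one : Q.ordInf 1 = 0 := by
  unfold ordInf
  rw [map_one, HahnSeries.order_one]

lemma ordInf_inv {h : F'} (hh : h ≠ 0) : Q.ordInf h⁻¹ = -Q.ordInf h := by
  have := Q.ordInf_mul hh (inv_ne_zero hh)
  rw [mul_inv_cancel₀ hh, ordInf_one] at this
  omega

lemma ordInf_div {h₁ h₂ : F'} (h1 : h₁ ≠ 0) (h2 : h₂ ≠ 0) :
    Q.ordInf (h₁ / h₂) = Q.ordInf h₁ - Q.ordInf h₂ := by
  rw [div_eq_mul_inv, Q.ordInf_mul h1 (inv_ne_zero h2), Q.ordInf_inv h2]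
  ring

/-- the valuation ring at infinity. -/
def vsInf : ValuationSubring F' where
  carrier := {h | 0 ≤ Q.ordInf h}
  mul_mem' := by
    intro a b ha hb
    by_cases ha0 : a = 0
    · simp [ha0, ordInf]
    by_cases hb0 : b = 0
    · simp [hb0, ordInf]
    show 0 ≤ Q.ordInf (a * b)
    rw [Q.ordInf_mul ha0 hb0]
    exact add_nonneg ha hb
  one_mem' := by
    show 0 ≤ Q.ordInf 1
    rw [ordInf_one]
  add_mem' := by
    intro a b ha hb
    show 0 ≤ Q.ordInf (a + b)
    by_cases hab : a + b = 0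
    · simp [hab, ordInf]
    unfold ordInf
    rw [map_add]
    have hab' : Q.q a + Q.q b ≠ 0 := by
      rw [← map_add]; exact Q.q_ne_zero hab
    exact le_trans (le_min ha hb) (HahnSeries.min_order_le_order_add hab')
  zero_mem' := by
    show 0 ≤ Q.ordInf 0
    simp [ordInf]
  neg_mem' := by
    intro a ha
    show 0 ≤ Q.ordInf (-a)
    unfold ordInf
    rw [map_neg, HahnSeries.order_neg]
    exact ha
  mem_or_inv_mem' := by
    intro a
    by_cases ha0 : a = 0
    · left
      show 0 ≤ Q.ordInf a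
      rw [ha0]
      simp [ordInf]
    rcases le_total 0 (Q.ordInf a) with h | h
    · exact Or.inl h
    · right
      show 0 ≤ Q.ordInf a⁻¹
      rw [Q.ordInf_inv ha0]
      omega

lemma mem_vsInf {h : F'} : h ∈ Q.vsInf ↔ 0 ≤ Q.ordInf h := Iff.rfl

lemma ordInf_algebraMap (c : ℂ) : Q.ordInf (algebraMap ℂ F' c) = 0 := by
  unfold ordInf
  rw [Q.q_algebraMap, HahnSeries.order_C]

/-- **the place at infinity** of `F'`. -/
def pinf : Place ℂ F' where
  toValuationSubring := Q.vsInf
  algebraMap_mem' := fun c => by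
    rw [mem_vsInf, ordInf_algebraMap]
  ne_top' := by
    intro htop
    obtain ⟨j, hj⟩ := Q.exists_neg
    have : j ∈ Q.vsInf := htop ▸ ValuationSubring.mem_top _
    rw [mem_vsInf] at this
    have h2 : Q.ordInf j < 0 := hj
    omega
  isPrincipalIdealRing' :=
    isPrincipalIdealRing_of_ord Q.vsInf Q.ordInf (fun _ _ => Iff.rfl)
      (fun _ _ h1 h2 => Q.ordInf_div h1 h2)

@[simp] lemma pinf_toValuationSubring : Q.pinf.toValuationSubring = Q.vsInf := rfl

/-- the order at infinity is invariant under `Aut ℂ`. -/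
lemma ordInf_aut (τ : ℂ ≃+* ℂ) (h : F') : Q.ordInf (Q.aut τ h) = Q.ordInf h := by
  unfold ordInf
  rw [q_aut]
  by_cases hh : Q.q h = 0
  · rw [hh, map_zero]
  have hsupp : (coeffMap (τ : ℂ →+* ℂ) (Q.q h)).support = (Q.q h).support := by
    ext k
    simp only [HahnSeries.mem_support, coeffMap_coeff, ne_eq]
    rw [RingEquiv.coe_toRingHom, map_eq_zero_iff τ τ.injective]
  have hne : coeffMap (τ : ℂ →+* ℂ) (Q.q h) ≠ 0 := by
    intro h0
    apply hh
    ext k
    have := congrArg (fun z => z.coeff k) h0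
    simp only [coeffMap_coeff, HahnSeries.coeff_zero] at this
    rw [RingEquiv.coe_toRingHom, map_eq_zero_iff τ τ.injective] at this
    simpa using this
  rw [HahnSeries.order_of_ne hne, HahnSeries.order_of_ne hh]
  congr 1

/-- the place at infinity is fixed by `Aut ℂ`. -/
theorem semi_smul_pinf (τ : ℂ ≃+* ℂ) : Q.semi τ • Q.pinf = Q.pinf := by
  apply Place.ext
  ext h
  rw [SemilinearAut.smul_toValuationSubring,
    ValuationSubring.mem_pointwise_smul_iff_inv_smul_mem, pinf_toValuationSubring, mem_vsInf,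
    mem_vsInf]
  have h1 : (Q.semi τ)⁻¹ • h = Q.aut τ⁻¹ h := by
    rw [← map_inv]; rfl
  rw [h1, ordInf_aut]

/-- **the leading coefficient** of the `q`-expansion. -/
def lc : F' →*₀ ℂ where
  toFun h := (Q.q h).leadingCoeff
  map_zero' := by rw [map_zero, HahnSeries.leadingCoeff_zero]
  map_one' := by rw [map_one, HahnSeries.leadingCoeff_one]
  map_mul' a b := by rw [map_mul, HahnSeries.leadingCoeff_mul]

lemma lc_apply (h : F') : Q.lc h = (Q.q h).leadingCoeff := rfl

lemma lc_algebraMap (c : ℂ) : Q.lc (algebraMap ℂ F' c) = c := by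
  rw [lc_apply, Q.q_algebraMap, HahnSeries.C_apply, HahnSeries.leadingCoeff_of_single]

lemma lc_aut (τ : ℂ ≃+* ℂ) (h : F') : Q.lc (Q.aut τ h) = τ (Q.lc h) := by
  rw [lc_apply, lc_apply, HahnSeries.leadingCoeff_eq, HahnSeries.leadingCoeff_eq]
  have h1 : (Q.q (Q.aut τ h)).order = (Q.q h).order := Q.ordInf_aut τ h
  rw [h1, q_aut, coeffMap_coeff]
  rfl

end QExpData

end Fermat.Agent.S48lib.X1.Desc
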