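import Mathlib
import Fermat.Agent.S29lib.D.DescentSurj
import Fermat.Agent.S29lib.D.Restrict
import Fermat.Agent.S48lib.X1.Desc.Inf

/-!
S48lib / X1 / Desc / Setup (helper9, block P3, descent `ℂ → ℚ̄`).

ABSTRACT PARAM port of `S29lib/D/Inst` (helper3): the descent setup for
`Q.Φ : ℚ̄ · F₀ →+* F'` with the action of `Aut (ℂ / ℚ̄)`, and

* `Q.dvd_ord_Φ`        (D-dvd)  : `n ∣ div f` over `ℚ̄` implies `n ∣ div (Φ f)` over `ℂ`;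
* `Q.exists_pow_eq_of_Φ` (D-inj) : `Φ f` an `n`-th power in `F'` implies `f` an `n`-th power;
* `Q.exists_descent`  (D-surj): every `f' ∈ F'` with `n ∣ div f'` is `Φ f₀` up to an `n`-th
  power, with `n ∣ div f₀` (given finiteness of `Pic⁰(F')[n]` and unramifiedness (B1)).
-/

set_option autoImplicit false
set_option linter.unusedSectionVars false

noncomputable section

namespace Fermat.Agent.S48lib.X1.Desc

open AlgebraicCurve ModularCurve Fermat.Agent.S29lib.D Fermat.Agent.S18lib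

/-- `ℚ̄` -/
local notation "Qb" => AlgebraicClosure ℚ

namespace QExpData

variable {F₀ : IntermediateField ℚ (LaurentSeries ℚ)} {F' : Type*} [Field F'] [Algebra ℂ F']
  (Q : QExpData F₀ F') [Algebra Qb ℂ]

/-- the descent setup for `ℚ̄ · F₀ ⊆ F'`. -/
def setup : DescentSetup Qb ℂ ↥(laurentBaseChange Qb F₀) F' (ℂ ≃ₐ[Qb] ℂ) where
  ι := algebraMap Qb ℂ
  Φ := Q.Φ
  Φ_algebraMap := Q.Φ_algebraMap
  Φ_const := Q.Φ_const
  ρ := Q.rho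
  ρ_Φ := Q.rho_Φ
  desc := Q.mem_range_Φ_of_fixed
  lc := Q.lc
  lc_const := Q.lc_algebraMap
  lc_smul := fun σ h => Q.lc_aut σ.toRingEquiv h
  Pinf := Q.pinf
  ρ_Pinf := fun σ => Q.semi_smul_pinf σ.toRingEquiv

lemma Φ_const' (a : Qb) :
    ∃ b : ℂ, Q.Φ (algebraMap Qb ↥(laurentBaseChange Qb F₀) a) = algebraMap ℂ F' b :=
  ⟨_, Q.Φ_algebraMap a⟩

/-- **(D-dvd)** -/
theorem dvd_ord_Φ {n : ℤ} {f : ↥(laurentBaseChange Qb F₀)}
    (hf : ∀ P : Place Qb ↥(laurentBaseChange Qb F₀), n ∣ P.ord f)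
    (P' : Place ℂ F') : n ∣ P'.ord (Q.Φ f) :=
  dvd_ord_map Q.Φ Q.Φ_const' hf P'

/-- **(D-inj)** -/
theorem exists_pow_eq_of_Φ {g' : ℕ} (hF' : IsCurveOfGenus ℂ F' g') {n : ℕ} (hn : 0 < n)
    {f : ↥(laurentBaseChange Qb F₀)} (hf : f ≠ 0) {h' : F'} (h : Q.Φ f = h' ^ n) :
    ∃ g : ↥(laurentBaseChange Qb F₀), g ≠ 0 ∧ g ^ n = f := by
  have h1 : Q.setup.Φ f = algebraMap ℂ F' 1 * h' ^ n := by
    rw [map_one, one_mul]; exact h
  obtain ⟨c₀, h₀, hh₀, hfc⟩ := Q.setup.exists_of_pow_eq hF' hn hf h1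
  obtain ⟨d, hd⟩ := IsAlgClosed.exists_pow_nat_eq c₀ hn
  have hd0 : d ≠ 0 := by
    rintro rfl
    rw [zero_pow hn.ne'] at hd
    rw [← hd, map_zero, zero_mul] at hfc
    exact hf hfc
  refine ⟨algebraMap Qb ↥(laurentBaseChange Qb F₀) d * h₀,
    mul_ne_zero ((map_ne_zero _).2 hd0) hh₀, ?_⟩
  rw [mul_pow, ← map_pow, hd, hfc]

/-- **(D-surj)** -/
theorem exists_descent {g' : ℕ} (hF' : IsCurveOfGenus ℂ F' g') {n : ℕ} (hn : 0 < n)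
    (hfin : (Pic0.torsion ℂ F' n : Set (Pic0 ℂ F')).Finite)
    (hB1 : ∀ P : Place Qb ↥(laurentBaseChange Qb F₀), ∃ P' : Place ℂ F',
      ∀ z : ↥(laurentBaseChange Qb F₀), P'.ord (Q.Φ z) = P.ord z)
    {f' : F'} (hf' : f' ≠ 0) (hdvd : ∀ P' : Place ℂ F', (n : ℤ) ∣ P'.ord f') :
    ∃ f₀ : ↥(laurentBaseChange Qb F₀), f₀ ≠ 0 ∧
      (∀ P : Place Qb ↥(laurentBaseChange Qb F₀), (n : ℤ) ∣ P.ord f₀) ∧
      ∃ u : F', u ≠ 0 ∧ f' * u ^ n = Q.Φ f₀ := by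
  obtain ⟨u, f₀, hu, hfu⟩ := Q.setup.exists_descent hF' hn hfin hf' hdvd
  have hfu' : f' * u ^ n = Q.Φ f₀ := hfu
  have hf₀ : f₀ ≠ 0 := by
    rintro rfl
    rw [map_zero] at hfu'
    exact mul_ne_zero hf' (pow_ne_zero n hu) hfu'
  refine ⟨f₀, hf₀, fun P => ?_, u, hu, hfu'⟩
  obtain ⟨P', hP'⟩ := hB1 P
  rw [← hP' f₀, ← hfu', P'.ord_mul hf' (pow_ne_zero n hu), Cech.ord_pow]
  exact dvd_add (hdvd P') (Dvd.intro _ rfl)

end QExpData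

end Fermat.Agent.S48lib.X1.Desc
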