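import Mathlib
import Fermat.Agent.S29lib.D.Unramified
import Fermat.Agent.S18lib.Weak.PolyAdapter
import Fermat.Agent.S48lib.X1.Desc.Setup

/-!
S48lib / X1 / Desc / Unram (helper9, block P3, descent `ℂ → ℚ̄`).

ABSTRACT PARAM port of `S29lib/D/UnramInst` (helper3): **(B1)** the constant field extension
`ℚ̄ · F₀ ⊆ F'` is unramified: every place `P` of `ℚ̄ · F₀ / ℚ̄` has a place `P'` of `F' / ℂ` above it
with `ord_{P'} ∘ Φ = ord_P`, given a non-constant `x` whose pole divisors on both sides have the same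
degree (`x = j`: the degrees are `[ℚ̄ · F₀ : ℚ̄(j)]` and `[F' : ℂ(j)]`).
-/

set_option autoImplicit false
set_option linter.unusedSectionVars false
set_option linter.style.haveILetI false

noncomputable section

namespace Fermat.Agent.S48lib.X1.Desc

open AlgebraicCurve ModularCurve Fermat.Agent.S29lib.D Fermat.Agent.S18lib
open Fermat.Agent.ProgramR Fermat.Agent.ProgramR.RR

/-- `ℚ̄` -/
local notation "Qb" => AlgebraicClosure ℚ

namespace QExpData

variable {F₀ : IntermediateField ℚ (LaurentSeries ℚ)} {F' : Type*} [Field F'] [Algebra ℂ F']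
  (Q : QExpData F₀ F') [Algebra Qb ℂ]

/-- **(B1)** -/
theorem exists_place_above {g g' : ℕ} (hF : IsCurveOfGenus Qb ↥(laurentBaseChange Qb F₀) g)
    (hF' : IsCurveOfGenus ℂ F' g') (x : ↥(laurentBaseChange Qb F₀))
    (hxtr : ∀ a : Qb, x - algebraMap Qb ↥(laurentBaseChange Qb F₀) a ≠ 0)
    (hdeg : letI := hF.hasPrincipalDivisors; letI := hF'.hasPrincipalDivisors
      Divisor.degree (Tame.poleDiv (K := Qb) x) = Divisor.degree (Tame.poleDiv (K := ℂ) (Q.Φ x)))
    (P : Place Qb ↥(laurentBaseChange Qb F₀)) :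
    ∃ P' : Place ℂ F', ∀ z : ↥(laurentBaseChange Qb F₀), P'.ord (Q.Φ z) = P.ord z := by
  letI := hF.hasPrincipalDivisors
  letI := hF'.hasPrincipalDivisors
  set x' : F' := Q.Φ x with hx'
  rcases lt_or_ge (P.ord x) 0 with hneg | hnn
  · -- a pole of `x`: use `y = 1 / x`
    have hx0 : x ≠ 0 := by
      rintro h0
      rw [h0, Place.ord_zero] at hneg
      omega
    refine exists_place_above_unramified Q.Φ Q.Φ_const' Q.Φ_const hF hF' P (y := x⁻¹)
      (by rw [P.ord_inv]; omega) ?_
    have e1 : Tame.zeroDiv (K := Qb) x⁻¹ = Tame.poleDiv (K := Qb) x := by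
      ext v
      rw [Tame.zeroDiv_apply, Tame.poleDiv_apply, v.ord_inv]
    have e2 : Tame.zeroDiv (K := ℂ) (Q.Φ x⁻¹) = Tame.poleDiv (K := ℂ) x' := by
      ext v
      rw [Tame.zeroDiv_apply, Tame.poleDiv_apply, map_inv₀, v.ord_inv]
    rw [e1, e2]
    exact hdeg
  · -- a finite place: use `y = x - a`
    have hmem : x ∈ P.toValuationSubring := (FF.mem_iff_ord_nonneg P x).2 hnn
    obtain ⟨a, ha⟩ := Cech.exists_value_of_deg_eq_one P (hF.deg_eq_one P) hmem
    have ha' : 1 ≤ P.ord (x - algebraMap Qb ↥(laurentBaseChange Qb F₀) a) := by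
      rcases ha with h | h
      · exact absurd (sub_eq_zero.2 h) (hxtr a)
      · exact h
    refine exists_place_above_unramified Q.Φ Q.Φ_const' Q.Φ_const hF hF' P
      (y := x - algebraMap Qb ↥(laurentBaseChange Qb F₀) a) (by omega) ?_
    have hy' : Q.Φ (x - algebraMap Qb ↥(laurentBaseChange Qb F₀) a)
        = x' - algebraMap ℂ F' (algebraMap Qb ℂ a) := by
      rw [map_sub, Q.Φ_algebraMap]
    have hne' : x' - algebraMap ℂ F' (algebraMap Qb ℂ a) ≠ 0 := by
      rw [← hy']
      exact (map_ne_zero Q.Φ).2 (hxtr a)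
    rw [Tame.degree_zeroDiv, Tame.degree_zeroDiv, hy', Tame.poleDiv_sub_const x a (hxtr a),
      Tame.poleDiv_sub_const x' _ hne']
    exact hdeg

end QExpData

end Fermat.Agent.S48lib.X1.Desc
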