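import Mathlib
import Fermat.Agent.S29lib.K3.ExpChar
import Fermat.Agent.S29lib.D.KummerRel
import Fermat.Agent.S48lib.X1.Desc.Unram
import Fermat.Agent.S48lib.X1.Kummer.Main

/-!
S48lib / X1 / Desc / KummerQ (helper9, block P3, descent `ℂ → ℚ̄`).

PARAM port of `S29lib/D/AsmKummer` (helper2): the Kummer isomorphism for the `ℚ̄`-curve
`Fq = ℚ̄ · F₀`, with the Kummer relation pulled back from the analytic curve `Fan Γ` along
`Q.Φ` (`Q : QExpData F₀ (Fan Γ)`).  All the inputs are bundled in `KQData Γ M F₀`.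

* `KQData.exists_kappaQ` : `Pic⁰(Fq)[n] ≃+ charSub Γ n`;
* **`KQData.lamQ : Pic⁰(Fq)[n] →+ Hom(Γ, ℤ/n)`**, `lamQ_spec`, `lamQ_injective`, `lamQ_range`;
* **`KQData.lamQ_transfer`** : the transfer principle for correspondences.
-/

set_option autoImplicit false
set_option linter.unusedSectionVars false
set_option linter.style.haveILetI false

noncomputable section

namespace Fermat.Agent.S48lib.X1.Desc

open AlgebraicCurve ModularCurve Fermat.Agent.S29lib Fermat.Agent.S18lib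
open Fermat.Agent.ProgramR Fermat.Agent.S16lib.LG
open Fermat.Agent.S48lib.X1.Chart Fermat.Agent.S48lib.X1.Kummer
open scoped MatrixGroups

/-- `ℚ̄` -/
local notation "Qb" => AlgebraicClosure ℚ

/-- `charSub Γ n` is finite for `Γ` finitely generated. -/
theorem finite_charSub {Γ : Subgroup SL(2, ℤ)} (hfg : Group.FG Γ) {n : ℕ} (hn : 0 < n) :
    Finite (charSub Γ n) := by
  classical
  haveI : NeZero n := ⟨hn.ne'⟩
  obtain ⟨S, hS, hSfin⟩ := Group.fg_iff.mp hfg
  haveI : Finite S := hSfin.to_subtype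
  let f : charSub Γ n → (S → rootsOfUnity n ℂ) := fun χ s =>
    ⟨(χ : Γ →* ℂˣ) (s : Γ), by
      rw [mem_rootsOfUnity]
      exact χ.2.1 s⟩
  have hf : Function.Injective f := by
    intro χ χ' h
    apply Subtype.ext
    apply MonoidHom.eq_of_eqOn_dense hS
    intro s hs
    exact congrArg Subtype.val (congrFun h ⟨s, hs⟩)
  exact Finite.of_injective f hf

/-- **the inputs of the descent of the Kummer isomorphism** from the analytic curve `Fan Γ`
to the `ℚ̄`-curve `ℚ̄ · F₀`. -/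
structure KQData (Γ : Subgroup SL(2, ℤ)) [Fintype (SL(2, ℤ) ⧸ Γ)] [Γ.FiniteIndex]
    (M : ℕ) [NeZero M] (F₀ : IntermediateField ℚ (LaurentSeries ℚ)) [Algebra Qb ℂ] where
  hlev : CongruenceSubgroup.Gamma M ≤ Γ
  /-- a separating function -/
  h₀ : WH0 Γ
  hs : Wp.Separates Γ h₀
  hneg : (-1 : SL(2, ℤ)) ∈ Γ
  htf : TorsionFree Γ
  hfg : Group.FG Γ
  /-- the `q`-expansion identification `Fan Γ ≃ ℂ · F₀` -/
  Q : QExpData F₀ (Fan Γ)
  /-- the genus of the `ℚ̄`-curve -/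
  g : ℕ
  hF : IsCurveOfGenus Qb ↥(laurentBaseChange Qb F₀) g
  /-- a transcendental function with the same degree on both sides (`j`) -/
  x : ↥(laurentBaseChange Qb F₀)
  hxtr : ∀ a : Qb, x - algebraMap Qb ↥(laurentBaseChange Qb F₀) a ≠ 0
  hdeg : letI := hF.hasPrincipalDivisors; letI := (isCurveAn Γ).hasPrincipalDivisors
    Divisor.degree (Tame.poleDiv (K := Qb) x) = Divisor.degree (Tame.poleDiv (K := ℂ) (Q.Φ x))

namespace KQData

variable {Γ : Subgroup SL(2, ℤ)} [Fintype (SL(2, ℤ) ⧸ Γ)] [Γ.FiniteIndex]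
  {M : ℕ} [NeZero M] {F₀ : IntermediateField ℚ (LaurentSeries ℚ)} [Algebra Qb ℂ]
  (D : KQData Γ M F₀)

include D in
/-- `Pic⁰(Fan Γ)[n]` is finite. -/
theorem finite_torsionAn {n : ℕ} (hn : 0 < n) :
    (Pic0.torsion ℂ (Fan Γ) n : Set (Pic0 ℂ (Fan Γ))).Finite := by
  obtain ⟨κ, -⟩ := exists_kummerEquiv D.hlev D.hs D.hneg D.htf hn
  haveI := finite_charSub D.hfg hn
  haveI : Finite (Additive (charSub Γ n)) := inferInstanceAs (Finite (charSub Γ n))
  haveI : Finite (Pic0.torsion ℂ (Fan Γ) n) := Finite.of_equiv _ κ.symm.toEquiv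
  exact Set.toFinite _

/-- the Kummer relation on the `ℚ̄`-curve, pulled back from the analytic curve -/
def relQ (n : ℕ) (f : ↥(laurentBaseChange Qb F₀)) (χ : Γ →* ℂˣ) : Prop :=
  K1.IsKum Γ n (D.Q.Φ f) χ

lemma Φ_ne_zero {f : ↥(laurentBaseChange Qb F₀)} (hf : f ≠ 0) : D.Q.Φ f ≠ 0 :=
  (map_ne_zero D.Q.Φ).2 hf

/-- the pulled-back relation satisfies the abstract Kummer hypotheses -/
theorem kummerRel_relQ {n : ℕ} (hn : 0 < n) :
    K1.KummerRel Qb ↥(laurentBaseChange Qb F₀) n (D.relQ n) where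
  unique := fun _ _ _ h h' => K1.IsKum.unique hn h h'
  exists_of_dvd := fun f hf hdvd =>
    (hdictAn D.hs D.hneg D.htf hn _ (D.Φ_ne_zero hf) (D.Q.dvd_ord_Φ hdvd)).exists_isKum hn
      (D.Φ_ne_zero hf)
  mul := fun f f' χ χ' h h' => by
    show K1.IsKum Γ n (D.Q.Φ (f * f')) (χ * χ')
    rw [map_mul]
    exact h.mul h'
  pow := fun h hh => by
    show K1.IsKum Γ n (D.Q.Φ (h ^ n)) 1
    rw [map_pow]
    exact K1.isKum_pow (D.Φ_ne_zero hh)
  ker := fun f h => by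
    have hf : f ≠ 0 := by
      rintro rfl
      exact h.ne_zero (map_zero _)
    obtain ⟨g', -, hg'⟩ := K1.IsKum.exists_pow_eq hn h
    exact D.Q.exists_pow_eq_of_Φ (isCurveAn Γ) hn hf hg'.symm

/-- **the Kummer isomorphism over `ℚ̄`** -/
theorem exists_kappaQ {n : ℕ} (hn : 0 < n) :
    ∃ κ : Pic0.torsion Qb ↥(laurentBaseChange Qb F₀) n ≃+ Additive (charSub Γ n),
      ∀ y : Pic0.torsion Qb ↥(laurentBaseChange Qb F₀) n,
        K1.PicRel Qb n (D.relQ n) (y : Pic0 Qb ↥(laurentBaseChange Qb F₀))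
          ((Additive.toMul (κ y) : charSub Γ n) : Γ →* ℂˣ) := by
  haveI := D.hF.hasPrincipalDivisors
  refine K1.exists_kummerEquiv (K1.const_of_ord_eq_zero D.hF)
    (D.kummerRel_relQ hn) hn (charSub Γ n) ?_ ?_
  · intro f χ hf hdvd hR
    exact hYAn D.hlev D.hs D.hneg D.htf hn _ χ (D.Φ_ne_zero hf) (D.Q.dvd_ord_Φ hdvd) hR
  · intro χ hχ
    obtain ⟨f', hf', hdvd', hK⟩ := hsurjAn D.hlev D.hs D.hneg D.htf hn (hRoot D.hneg hn) χ hχ
    obtain ⟨f₀, hf₀, hdvd₀, u, hu, hfu⟩ := D.Q.exists_descent (isCurveAn Γ) hn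
      (D.finite_torsionAn hn)
      (D.Q.exists_place_above D.hF (isCurveAn Γ) D.x D.hxtr D.hdeg) hf' hdvd'
    refine ⟨f₀, hf₀, hdvd₀, ?_⟩
    show K1.IsKum Γ n (D.Q.Φ f₀) χ
    rw [← hfu]
    have h1 : χ * (1 : Γ →* ℂˣ) = χ := by
      ext γ
      simp
    have := hK.mul (K1.isKum_pow (Γ := Γ) (n := n) hu)
    rwa [h1] at this


/-! ### the additive form `lamQ` -/

section Lam

variable (n : ℕ) [NeZero n]

/-- a chosen Kummer isomorphism -/
def kappaQ : Pic0.torsion Qb ↥(laurentBaseChange Qb F₀) n ≃+ Additive (charSub Γ n) :=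
  (D.exists_kappaQ (NeZero.pos n)).choose

lemma kappaQ_spec (y : Pic0.torsion Qb ↥(laurentBaseChange Qb F₀) n) :
    K1.PicRel Qb n (D.relQ n) (y : Pic0 Qb ↥(laurentBaseChange Qb F₀))
      ((Additive.toMul (D.kappaQ n y) : charSub Γ n) : Γ →* ℂˣ) :=
  (D.exists_kappaQ (NeZero.pos n)).choose_spec y

/-- the underlying function of `lamQ` -/
def lamFun (y : Pic0.torsion Qb ↥(laurentBaseChange Qb F₀) n) : Additive Γ →+ ZMod n :=
  (K3.exists_expChar_eq n ((Additive.toMul (D.kappaQ n y) : charSub Γ n) : Γ →* ℂˣ)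
    (Additive.toMul (D.kappaQ n y) : charSub Γ n).2.1).choose

lemma expChar_lamFun (y : Pic0.torsion Qb ↥(laurentBaseChange Qb F₀) n) :
    K3.expChar n (D.lamFun n y) = ((Additive.toMul (D.kappaQ n y) : charSub Γ n) : Γ →* ℂˣ) :=
  (K3.exists_expChar_eq n ((Additive.toMul (D.kappaQ n y) : charSub Γ n) : Γ →* ℂˣ)
    (Additive.toMul (D.kappaQ n y) : charSub Γ n).2.1).choose_spec

/-- **the Kummer map in additive form** `Pic⁰(ℚ̄ · F₀)[n] →+ Hom(Γ, ℤ/n)` -/
def lamQ : Pic0.torsion Qb ↥(laurentBaseChange Qb F₀) n →+ (Additive Γ →+ ZMod n) where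
  toFun := D.lamFun n
  map_zero' := by
    apply K3.expChar_injective n
    rw [expChar_lamFun, map_zero, K3.expChar_zero]
    rfl
  map_add' y y' := by
    apply K3.expChar_injective n
    rw [K3.expChar_add, expChar_lamFun, expChar_lamFun, expChar_lamFun, map_add]
    rfl

lemma expChar_lamQ (y : Pic0.torsion Qb ↥(laurentBaseChange Qb F₀) n) :
    K3.expChar n (D.lamQ n y) = ((Additive.toMul (D.kappaQ n y) : charSub Γ n) : Γ →* ℂˣ) :=
  D.expChar_lamFun n y

/-- the defining property of `lamQ` -/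
theorem lamQ_spec (y : Pic0.torsion Qb ↥(laurentBaseChange Qb F₀) n) :
    K1.PicRel Qb n (D.relQ n) (y : Pic0 Qb ↥(laurentBaseChange Qb F₀))
      (K3.expChar n (D.lamQ n y)) := by
  rw [expChar_lamQ]
  exact D.kappaQ_spec n y

theorem lamQ_injective : Function.Injective (D.lamQ n) := by
  intro y y' h
  apply (D.kappaQ n).injective
  apply Additive.toMul.injective
  apply Subtype.ext
  rw [← expChar_lamQ, ← expChar_lamQ, h]

/-- `lamQ y` kills the parabolic and the finite order elements. -/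
theorem lamQ_kills (y : Pic0.torsion Qb ↥(laurentBaseChange Qb F₀) n) (γ : Γ)
    (hγ : IsParTor (γ : SL(2, ℤ))) : D.lamQ n y (Additive.ofMul γ) = 0 := by
  rw [← K3.expChar_eq_one_iff, expChar_lamQ]
  exact (Additive.toMul (D.kappaQ n y) : charSub Γ n).2.2 γ hγ

/-- every homomorphism killing the parabolic and the finite order elements is a value of
`lamQ`. -/
theorem lamQ_range (ψ : Additive Γ →+ ZMod n)
    (hψ : ∀ γ : Γ, IsParTor (γ : SL(2, ℤ)) → ψ (Additive.ofMul γ) = 0) :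
    ψ ∈ Set.range (D.lamQ n) := by
  have hmem : K3.expChar n ψ ∈ charSub Γ n :=
    ⟨fun γ => K3.expChar_pow n ψ γ,
      (K3.expChar_kills_iff n ψ (fun γ : Γ => IsParTor (γ : SL(2, ℤ)))).2 hψ⟩
  refine ⟨(D.kappaQ n).symm (Additive.ofMul ⟨K3.expChar n ψ, hmem⟩), ?_⟩
  apply K3.expChar_injective n
  rw [expChar_lamQ, AddEquiv.apply_symm_apply]
  rfl

/-- `lamQ y` is characterised by its defining property. -/
theorem lamQ_unique {y : Pic0.torsion Qb ↥(laurentBaseChange Qb F₀) n}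
    {ψ : Additive Γ →+ ZMod n}
    (h : K1.PicRel Qb n (D.relQ n) (y : Pic0 Qb ↥(laurentBaseChange Qb F₀)) (K3.expChar n ψ)) :
    D.lamQ n y = ψ := by
  apply K3.expChar_injective n
  exact K1.PicRel.unique (K1.const_of_ord_eq_zero D.hF) (D.kummerRel_relQ (NeZero.pos n))
    (NeZero.pos n) (D.lamQ_spec n y) h

/-- additive endomorphisms of `Pic⁰` preserve the torsion. -/
lemma map_mem_torsion (T : Pic0 Qb ↥(laurentBaseChange Qb F₀) →+ Pic0 Qb ↥(laurentBaseChange Qb F₀))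
    {y : Pic0 Qb ↥(laurentBaseChange Qb F₀)}
    (hy : y ∈ Pic0.torsion Qb ↥(laurentBaseChange Qb F₀) n) :
    T y ∈ Pic0.torsion Qb ↥(laurentBaseChange Qb F₀) n := by
  rw [Pic0.mem_torsion] at hy ⊢
  rw [← map_zsmul, hy, map_zero]

/-- **the transfer principle**: if a correspondence `T` on `Pic⁰` has the function-level
description `f ↦ N f` (Kummer representatives), and `N` acts on Kummer characters through
`op`, then `lamQ ∘ T = op ∘ lamQ`. -/
theorem lamQ_transfer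
    (T : Pic0 Qb ↥(laurentBaseChange Qb F₀) →+ Pic0 Qb ↥(laurentBaseChange Qb F₀))
    (N : ↥(laurentBaseChange Qb F₀) → ↥(laurentBaseChange Qb F₀))
    (hTN : ∀ (x : Pic0 Qb ↥(laurentBaseChange Qb F₀)) (f : ↥(laurentBaseChange Qb F₀)),
      S29lib.D.KummerRel n x f → S29lib.D.KummerRel n (T x) (N f))
    (op : (Additive Γ →+ ZMod n) → (Additive Γ →+ ZMod n))
    (hop : ∀ (f : ↥(laurentBaseChange Qb F₀)) (ψ : Additive Γ →+ ZMod n), f ≠ 0 →
      (∀ v : Place Qb ↥(laurentBaseChange Qb F₀), (n : ℤ) ∣ v.ord f) →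
      (∀ γ : Γ, IsParTor (γ : SL(2, ℤ)) → ψ (Additive.ofMul γ) = 0) →
      K1.IsKum Γ n (D.Q.Φ f) (K3.expChar n ψ) →
      K1.IsKum Γ n (D.Q.Φ (N f)) (K3.expChar n (op ψ)))
    (y : Pic0.torsion Qb ↥(laurentBaseChange Qb F₀) n) :
    D.lamQ n ⟨T y, map_mem_torsion n T y.2⟩ = op (D.lamQ n y) := by
  apply D.lamQ_unique n
  obtain ⟨E, f, hE, hf, hEf, hR⟩ := D.lamQ_spec n y
  have hK : S29lib.D.KummerRel n (y : Pic0 Qb ↥(laurentBaseChange Qb F₀)) f := ⟨hf, E, hE, hEf⟩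
  obtain ⟨hf', E', hE', hEf'⟩ := hTN _ _ hK
  refine ⟨E', N f, hE', hf', hEf', ?_⟩
  exact hop f _ hf (fun v => ⟨_, (hEf v).symm⟩) (D.lamQ_kills n y) hR

end Lam

end KQData

end Fermat.Agent.S48lib.X1.Desc
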