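import Mathlib
import Fermat.Agent.S48lib.X1.Desc.KummerQ
import Fermat.Agent.S48lib.X1.HeckeJ.LinDisjGen
import Fermat.Agent.S48lib.X1.HeckeJ.QModel
import Fermat.Agent.S18lib.Weak.PolyAdapter
import Fermat.Agent.S18lib.RHCount.PoleDegree
import Fermat.Agent.S28lib.Series

/-!
S48lib / X1 / Desc / Inst (helper9, block P3, descent `ℂ → ℚ̄`).

The inputs `KQData Γ M F₀` of the descended Kummer isomorphism from helper6's / helper3's
vocabulary: an analytic `q`-model `IsAnModel Γ hT F₀` which `Generates`, and is a `ℚ̄`-model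
`IsQModel F₀` with `[ℚ̄ F₀ : ℚ̄(j)] = [SL₂(ℤ) : Γ]`.

* `qExpDataOf hM hgen hj : QExpData F₀ (Fan Γ)` and `qExpDataOf_Φ` (`Φ = hM.toFunField`);
* `kqDataOf …  : KQData Γ M F₀`.
-/

set_option autoImplicit false
set_option linter.unusedSectionVars false
set_option linter.style.haveILetI false

noncomputable section

namespace Fermat.Agent.S48lib.X1.Desc

open AlgebraicCurve ModularCurve Fermat.Agent.S29lib Fermat.Agent.S18lib
open Fermat.Agent.ProgramR Fermat.Agent.ProgramR.Alg Fermat.Agent.S16lib.LG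
open Fermat.Agent.S48lib.X1.Chart Fermat.Agent.S48lib.X1.Kummer Fermat.Agent.S48lib.X1.HeckeJ
open scoped MatrixGroups

/-- `ℚ̄` -/
local notation "Qb" => AlgebraicClosure ℚ

section Generic

variable {Γ : Subgroup SL(2, ℤ)} [Fintype (SL(2, ℤ) ⧸ Γ)]
  {hT : ModularGroup.T ^ ((1 : ℕ) : ℤ) ∈ Γ} {F₀ : IntermediateField ℚ (LaurentSeries ℚ)}
  [Algebra Qb ℂ]

/-- `Fan Γ` and `WH0.FunField Γ` are the same field. -/
def fanEquiv (Γ : Subgroup SL(2, ℤ)) [Fintype (SL(2, ℤ) ⧸ Γ)] : Fan Γ ≃+* WH0.FunField Γ :=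
  RingEquiv.refl (WH0.FunField Γ)

variable (hM : IsAnModel Γ hT F₀) (hgen : Generates hM (algebraMap Qb ℂ)) (hj : jq ∈ F₀)

include hgen hj in
/-- the `q`-expansions of the analytic function field lie in `ℂ · F₀`. -/
theorem qExpFFW_mem_of_generates (c : WH0.FunField Γ) :
    qExpFFW Γ 1 hT c ∈ laurentBaseChange ℂ F₀ := by
  -- elements of `algΦG`
  have hspan' : ∀ w : WH0.FunField Γ,
      w ∈ Submodule.span ℂ (Set.range (hM.toFunField (algebraMap Qb ℂ))) →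
      qExpFFW Γ 1 hT w ∈ laurentBaseChange ℂ F₀ := by
    intro w hw
    induction hw using Submodule.span_induction with
    | mem x hx =>
        obtain ⟨y, rfl⟩ := hx
        rw [hM.qExpFFW_toFunField]
        exact D.coeffMap_mem_laurentBaseChange' (algebraMap Qb ℂ) F₀ y.2
    | zero => rw [RingHom.map_zero]; exact zero_mem _
    | add x y _ _ hx hy => rw [RingHom.map_add]; exact add_mem hx hy
    | smul a x _ hx =>
        rw [Algebra.smul_def, RingHom.map_mul, qExpFFW_const']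
        refine mul_mem ?_ hx
        have : (HahnSeries.C a : LaurentSeries ℂ) = algebraMap ℂ (LaurentSeries ℂ) a := by
          rw [algebraMap_laurentSeries_eq_single]
          rfl
        rw [this]
        exact (laurentBaseChange ℂ F₀).algebraMap_mem a
  have hspan : ∀ w : WH0.FunField Γ, w ∈ algΦG hM (algebraMap Qb ℂ) →
      qExpFFW Γ 1 hT w ∈ laurentBaseChange ℂ F₀ :=
    fun w hw => hspan' w (mem_span_of_mem_algΦG hM (algebraMap Qb ℂ) hw)
  obtain ⟨q, hq0, hq⟩ := hgen c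
  have h1 := hspan _ hq
  have h2 := hspan _ (jPoly_mem_algΦG hM (algebraMap Qb ℂ) hj q)
  have h3 : qExpFFW Γ 1 hT (jPoly Γ q) ≠ 0 :=
    (map_ne_zero (qExpFFW Γ 1 hT)).2 (jPoly_ne_zero hq0)
  rw [RingHom.map_mul] at h1
  have h4 : qExpFFW Γ 1 hT c =
      (qExpFFW Γ 1 hT (jPoly Γ q))⁻¹ * (qExpFFW Γ 1 hT (jPoly Γ q) * qExpFFW Γ 1 hT c) := by
    rw [← mul_assoc, inv_mul_cancel₀ h3, one_mul]
  rw [h4]
  exact mul_mem (inv_mem h2) h1

/-- **the `q`-expansion identification** `Fan Γ ≃ ℂ · F₀` of an analytic `q`-model which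
generates. -/
def qExpDataOf : QExpData F₀ (Fan Γ) where
  q := (qExpFFW Γ 1 hT).comp (fanEquiv Γ).toRingHom
  q_algebraMap := fun c => qExpFFW_const' Γ 1 hT c
  q_mem := fun h => qExpFFW_mem_of_generates hM hgen hj (fanEquiv Γ h)
  q_surj := fun y hy => by
    have h1 := hM.coeffMap_mem (RingHom.id ℂ) hy
    rw [coeffMap_id] at h1
    obtain ⟨w, hw⟩ := h1
    exact ⟨(fanEquiv Γ).symm w, hw⟩
  exists_neg := by
    refine ⟨(fanEquiv Γ).symm (algebraMap _ (WH0.FunField Γ) (WH0.j Γ)), ?_⟩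
    have h1 : ((qExpFFW Γ 1 hT).comp (fanEquiv Γ).toRingHom)
        ((fanEquiv Γ).symm (algebraMap _ (WH0.FunField Γ) (WH0.j Γ))) = jqModC ℂ :=
      qExpFFW_j Γ hT
    rw [h1, Fermat.Agent.S28lib.order_jqModC]
    norm_num

@[simp] lemma qExpDataOf_q (h : Fan Γ) :
    (qExpDataOf hM hgen hj).q h = qExpFFW Γ 1 hT (fanEquiv Γ h) := rfl

/-- `Φ` of `qExpDataOf` is helper6's comparison map. -/
theorem qExpDataOf_Φ (f : ↥(laurentBaseChange Qb F₀)) :
    fanEquiv Γ ((qExpDataOf hM hgen hj).Φ f) = hM.toFunField (algebraMap Qb ℂ) f := by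
  apply qExpFFW_injective Γ 1 hT
  rw [hM.qExpFFW_toFunField, ← qExpDataOf_q hM hgen hj, QExpData.q_Φ]

end Generic

/-! ### the degree of `j` on the analytic curve -/

section Degree

variable (Γ : Subgroup SL(2, ℤ)) [Fintype (SL(2, ℤ) ⧸ Γ)]

/-- `X ↦ j` -/
theorem algebraMap_ratFunc_X_Fan :
    algebraMap (RatFunc ℂ) (Fan Γ) RatFunc.X = algebraMap (WH0 Γ) (Fan Γ) (WH0.j Γ) := by
  rw [← RatFunc.algebraMap_X, ← IsScalarTower.algebraMap_apply (Polynomial ℂ) (RatFunc ℂ) (Fan Γ),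
    IsScalarTower.algebraMap_apply (Polynomial ℂ) (WH0 Γ) (Fan Γ), WH0.algebraMap_poly,
    Polynomial.aeval_X]

/-- `deg (j)_∞ = [Frac (WH0 Γ) : ℂ(j)] = rank_{ℂ[j]} (WH0 Γ)` on the analytic curve. -/
theorem degree_poleDiv_j_Fan :
    Divisor.degree (Tame.poleDiv (K := ℂ) (algebraMap (WH0 Γ) (Fan Γ) (WH0.j Γ))) =
      (Module.finrank (Polynomial ℂ) (WH0 Γ) : ℤ) := by
  rw [← algebraMap_ratFunc_X_Fan, RHCount.degree_poleDiv_eq_finrank ℂ (Fan Γ) (BInf Γ),
    finrank_FF]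

end Degree

/-! ### the assembly -/

section Assembly

variable {Γ : Subgroup SL(2, ℤ)} [Fintype (SL(2, ℤ) ⧸ Γ)] [Γ.FiniteIndex]
  {hT : ModularGroup.T ^ ((1 : ℕ) : ℤ) ∈ Γ} {F₀ : IntermediateField ℚ (LaurentSeries ℚ)}
  [Algebra Qb ℂ] {M : ℕ} [NeZero M]

lemma jBq_sub_ne_zero (hj : jq ∈ F₀) (a : Qb) :
    jBq F₀ hj - algebraMap Qb (FBq F₀) a ≠ 0 := by
  intro h0
  apply transcendental_jBq F₀ hj
  rw [sub_eq_zero.1 h0]
  exact isAlgebraic_algebraMap a

/-- `Φ j = j`. -/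
lemma qExpDataOf_Φ_jBq (hM : IsAnModel Γ hT F₀) (hgen : Generates hM (algebraMap Qb ℂ))
    (hj : jq ∈ F₀) :
    (qExpDataOf hM hgen hj).Φ (jBq F₀ hj) = algebraMap (WH0 Γ) (Fan Γ) (WH0.j Γ) := by
  have h := qExpDataOf_Φ hM hgen hj (jBq F₀ hj)
  rw [hM.toFunField_j (algebraMap Qb ℂ) (jBq F₀ hj) (coe_jBq F₀ hj)] at h
  exact h

/-- **the inputs of the descended Kummer isomorphism** from an analytic `q`-model which
generates and has the right degree. -/
def kqDataOf (hlev : CongruenceSubgroup.Gamma M ≤ Γ) {h₀ : WH0 Γ} (hs : Wp.Separates Γ h₀)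
    (hneg : (-1 : SL(2, ℤ)) ∈ Γ) (htf : TorsionFree Γ) (hfg : Group.FG Γ)
    (hM : IsAnModel Γ hT F₀) (hgen : Generates hM (algebraMap Qb ℂ)) (hQ : IsQModel F₀)
    (hdeg : Module.finrank (IntermediateField.adjoin Qb {jBq F₀ hQ.jq_mem}) (FBq F₀) =
      Fintype.card (SL(2, ℤ) ⧸ Γ)) :
    KQData Γ M F₀ :=
  haveI := hQ.finite
  haveI : Algebra.IsAlgebraic (IntermediateField.adjoin Qb {jBq F₀ hQ.jq_mem}) (FBq F₀) :=
    Algebra.IsAlgebraic.of_finite _ _
  haveI : Algebra.IsSeparable (IntermediateField.adjoin Qb {jBq F₀ hQ.jq_mem}) (FBq F₀) :=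
    Algebra.IsAlgebraic.isSeparable_of_perfectField
  { hlev := hlev
    h₀ := h₀
    hs := hs
    hneg := hneg
    htf := htf
    hfg := hfg
    Q := qExpDataOf hM hgen hQ.jq_mem
    g := RRgen.Canonical.genusOf Qb (transcendental_jBq F₀ hQ.jq_mem)
    hF := RRgen.Canonical.isCurveOfGenus_genusOf Qb (transcendental_jBq F₀ hQ.jq_mem)
    x := jBq F₀ hQ.jq_mem
    hxtr := jBq_sub_ne_zero hQ.jq_mem
    hdeg := by
      letI := (RRgen.Canonical.isCurveOfGenus_genusOf Qb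
        (transcendental_jBq F₀ hQ.jq_mem)).hasPrincipalDivisors
      rw [qExpDataOf_Φ_jBq, degree_poleDiv_eq_finrank_adjoin Qb
        (transcendental_jBq F₀ hQ.jq_mem), hdeg, Wp.card_eq_finrank_of_separates hs]
      exact (degree_poleDiv_j_Fan Γ).symm }

end Assembly

end Fermat.Agent.S48lib.X1.Desc
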