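import Mathlib
import Fermat.Agent.S48lib.X1.Desc.Inst
import Fermat.Agent.S48lib.X1.Field.Degree
import Fermat.Agent.S48lib.X1.Field.QModelInst
import Fermat.Agent.S48lib.X1.Field.Generates
import Fermat.Agent.S48lib.X1.Forms.Period

/-!
S48lib / X1 / Desc / InstF1 (helper9, block P3).

The descended Kummer isomorphism for `X_1(M)`, `M ≥ 4`: `Γ = ±Γ₁(M)`, `F₀ = F₁(M)` (helper3's
model), with the embedding `qbarEmb : ℚ̄ → ℂ`.

* `algQbC : Algebra ℚ̄ ℂ` (`algebraMap = qbarEmb`; a `def`, use `letI`/`attribute [local instance]`);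
* `kqF1 hM : KQData (pmGamma1 M) M (F1 M)`.
-/

set_option autoImplicit false
set_option linter.unusedSectionVars false
set_option linter.style.haveILetI false

noncomputable section

namespace Fermat.Agent.S48lib.X1.Desc

open AlgebraicCurve ModularCurve Fermat.Agent.S29lib Fermat.Agent.S18lib
open Fermat.Agent.ProgramR Fermat.Agent.ProgramR.BarField Fermat.Agent.S16lib.LG
open Fermat.Agent.S48lib.X1.Chart Fermat.Agent.S48lib.X1.Kummer Fermat.Agent.S48lib.X1.HeckeJ
open Fermat.Agent.S48lib.X1.Wp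
open scoped MatrixGroups

/-- `ℚ̄` -/
local notation "Qb" => AlgebraicClosure ℚ

/-- the `ℚ̄`-algebra structure of `ℂ` given by `qbarEmb` -/
@[reducible] def algQbC : Algebra Qb ℂ := (qbarEmb : Qb →+* ℂ).toAlgebra

attribute [local instance] algQbC

lemma algebraMap_Qb_C : algebraMap Qb ℂ = (qbarEmb : Qb →+* ℂ) := rfl

variable {M : ℕ} [NeZero M]

/-- **the inputs of the descended Kummer isomorphism for `X_1(M)`**, `M ≥ 4`. -/
def kqF1 (hM : 4 ≤ M) : KQData (pmGamma1 M) M (F1 M) :=
  kqDataOf (Gamma_le_pmGamma1 M) (separates_frickeWH0 (by omega : 1 < M))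
    (neg_one_mem_pmGamma1 M) (torsionFree_pmGamma1 hM)
    (Forms.groupFG_of_finiteIndex (pmGamma1 M)) isAnModel_F1
    (X1.generates_F1 (by omega : 1 < M)) isQModel_F1 (finrank_FBar1 (by omega : 1 < M))

end Fermat.Agent.S48lib.X1.Desc
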